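import Mathlib
import Fermat.Prelude.Def_AlgebraicCurve_BaseChangeGalois
import Fermat.Prelude.Def_FLTPrelim_GaloisRep
import Fermat.Agent.S24.Ord
import Fermat.Agent.S58.Red.Hom

/-!
# PROJECT W (S52), T2 = constancy, brick (C4), generic half: specialisation at a place

`K0 ⊆ Kb` fields, `L / Kb` a field with a place `v : Place Kb L` whose residue field is `Kb`
(`hsurj`; automatic for a function field over an algebraically closed `Kb`).  A Weierstrass curve
`W'⁄L` (`W'` over a ring `S` with `Algebra S L`) SPECIALISES at `v` to `W0⁄Kb` (`W0` over `K0`) if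
each coefficient of `W'⁄L` is congruent at `v` to the corresponding constant and `W0.Δ ≠ 0`
(`SpecializesTo`).  Then (main's generic good-reduction theory `S58/Red`):

* `spec : (W'⁄L).Point →+ (W0⁄Kb).Point`, the specialisation homomorphism;
* `spec_some_of_near` : its value on an integral point, in coordinates;
* `spec_eq_zero_iff` : its kernel is the set of points with a pole at `v`;
* `eq_of_spec_eq_of_nsmul_eq_zero` : injective on `n`-torsion, `n ≠ 0` in `Kb`;
* `spec_smul` : **equivariance**: for `g : L ≃ₐ[S] L` inducing `σ : Kb ≃ₐ[K0] Kb` on the constants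
  and fixing the place `v`, `spec (g • P) = σ • spec P`;
* `exists_equiv_of_full` : if `W'⁄L` has `≥ n²` points killed by `n` over `L` and the two special
  fibres at `v₀, v₁` have exactly `n²` over `Kb`, then the two special fibres have equivariantly
  isomorphic `n`-torsion.
-/

set_option autoImplicit false
set_option linter.unusedSectionVars false
set_option linter.style.haveILetI false

noncomputable section

namespace Fermat.Agent.S52.Const.SpecAt

open AlgebraicCurve WeierstrassCurve WeierstrassCurve.Affine
open Fermat.Agent.S24.Ord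
open Fermat.Agent.S58.Red.ResidueRel Fermat.Agent.S58.Red.Kernel Fermat.Agent.S58.Red.CurveRed
  Fermat.Agent.S58.Red.Hom

variable {Kb L : Type*} [Field Kb] [Field L] [Algebra Kb L]

/-! ### congruence to a constant at a place -/

section Near

variable (v : Place Kb L)

/-- `x` is congruent to the constant `a` at the place `v` -/
def Near (x : L) (a : Kb) : Prop := v.adicValuation (x - algebraMap Kb L a) < 1

variable {v}

theorem Near.mem {x : L} {a : Kb} (h : Near v x a) : x ∈ v.toValuationSubring := by
  have h1 : x - algebraMap Kb L a ∈ v.toValuationSubring := (mem_iff v _).mpr h.le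
  have h2 := add_mem h1 (v.algebraMap_mem' a)
  rwa [sub_add_cancel] at h2

/-- the residue class of an element congruent to the constant `a` is `a` -/
theorem Near.redTo {x : L} {a : Kb} (h : Near v x a) :
    RedTo v.toValuationSubring x (algebraMap Kb v.ResidueField a) := by
  refine ⟨h.mem, ?_⟩
  have h1 : x - algebraMap Kb L a ∈ v.toValuationSubring := (mem_iff v _).mpr h.le
  have h0 : IsLocalRing.residue v.toValuationSubring ⟨x - algebraMap Kb L a, h1⟩ = 0 := by
    rw [IsLocalRing.residue_eq_zero_iff, mem_maximalIdeal_iff]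
    exact h
  have hsplit : (⟨x, h.mem⟩ : v.toValuationSubring)
      = ⟨x - algebraMap Kb L a, h1⟩ + algebraMap Kb v.toValuationSubring a := by
    apply Subtype.ext
    simp
  rw [hsplit, map_add, h0, zero_add]
  rfl

theorem near_of_redTo {x : L} {a : Kb}
    (h : RedTo v.toValuationSubring x (algebraMap Kb v.ResidueField a)) : Near v x a := by
  obtain ⟨hx, hres⟩ := h
  have h1 : x - algebraMap Kb L a ∈ v.toValuationSubring :=
    sub_mem hx (v.algebraMap_mem' a)
  have h0 : IsLocalRing.residue v.toValuationSubring ⟨x - algebraMap Kb L a, h1⟩ = 0 := by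
    have hsplit : (⟨x - algebraMap Kb L a, h1⟩ : v.toValuationSubring)
        = ⟨x, hx⟩ - algebraMap Kb v.toValuationSubring a := by
      apply Subtype.ext
      simp
    rw [hsplit, map_sub, hres]
    exact sub_self _
  rw [IsLocalRing.residue_eq_zero_iff, mem_maximalIdeal_iff] at h0
  exact h0

theorem near_algebraMap (a : Kb) : Near v (algebraMap Kb L a) a := by
  unfold Near
  rw [sub_self, map_zero]
  exact zero_lt_one

theorem Near.unique {x : L} {a b : Kb} (h : Near v x a) (h' : Near v x b) : a = b := by
  have := h.redTo.unique h'.redTo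
  exact (algebraMap Kb v.ResidueField).injective this

/-- if the residue field is `Kb`, every integral element is congruent to a constant -/
theorem exists_near (hsurj : Function.Surjective (algebraMap Kb v.ResidueField)) {x : L}
    (hx : x ∈ v.toValuationSubring) : ∃ a : Kb, Near v x a := by
  obtain ⟨a, ha⟩ := hsurj (IsLocalRing.residue v.toValuationSubring ⟨x, hx⟩)
  exact ⟨a, near_of_redTo ⟨hx, ha.symm⟩⟩

/-- for a function field over an algebraically closed field the residue field of every place is
the field of constants -/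
theorem algebraMap_residue_surjective [IsAlgClosed Kb] {t : L} (ht : Fermat.Agent.S24.FF.IsFF Kb t)
    (v : Place Kb L) : Function.Surjective (algebraMap Kb v.ResidueField) := by
  intro r
  obtain ⟨u, rfl⟩ := IsLocalRing.residue_surjective r
  obtain ⟨c, hc⟩ := exists_sub_lt_one ht v ((mem_iff v _).mp u.2)
  have h : Near v (u : L) c := hc
  obtain ⟨hu, hres⟩ := h.redTo
  exact ⟨c, hres.symm⟩

end Near

/-! ### the specialisation homomorphism -/

section Spec

variable {K0 S : Type*} [Field K0] [Algebra K0 Kb] [CommRing S] [Algebra S L]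
  [DecidableEq Kb] [DecidableEq L]

/-- `W'⁄L` specialises at the place `v` to the elliptic curve `W0⁄Kb` -/
structure SpecializesTo (v : Place Kb L) (W' : Affine S) (W0 : Affine K0) : Prop where
  a1 : Near v (algebraMap S L W'.a₁) (algebraMap K0 Kb W0.a₁)
  a2 : Near v (algebraMap S L W'.a₂) (algebraMap K0 Kb W0.a₂)
  a3 : Near v (algebraMap S L W'.a₃) (algebraMap K0 Kb W0.a₃)
  a4 : Near v (algebraMap S L W'.a₄) (algebraMap K0 Kb W0.a₄)
  a6 : Near v (algebraMap S L W'.a₆) (algebraMap K0 Kb W0.a₆)
  disc : W0.Δ ≠ 0

/-- the `K0`-algebra structure of the residue field of a place (through `Kb`) -/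
@[reducible] def residueAlgebra (K0 : Type*) [Field K0] [Algebra K0 Kb] (v : Place Kb L) :
    Algebra K0 v.ResidueField :=
  ((algebraMap Kb v.ResidueField).comp (algebraMap K0 Kb)).toAlgebra

theorem residue_isScalarTower (K0 : Type*) [Field K0] [Algebra K0 Kb] (v : Place Kb L) :
    letI := residueAlgebra K0 v
    IsScalarTower K0 Kb v.ResidueField :=
  letI := residueAlgebra K0 v
  IsScalarTower.of_algebraMap_eq fun _ => rfl

/-- the residue field of `v` is `Kb` -/
def residueEquiv (v : Place Kb L) (hsurj : Function.Surjective (algebraMap Kb v.ResidueField)) :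
    Kb ≃ₐ[Kb] v.ResidueField :=
  AlgEquiv.ofBijective (Algebra.ofId Kb v.ResidueField)
    ⟨(algebraMap Kb v.ResidueField).injective, hsurj⟩

@[simp] theorem residueEquiv_apply (v : Place Kb L)
    (hsurj : Function.Surjective (algebraMap Kb v.ResidueField)) (a : Kb) :
    residueEquiv v hsurj a = algebraMap Kb v.ResidueField a := rfl

@[simp] theorem residueEquiv_symm_algebraMap (v : Place Kb L)
    (hsurj : Function.Surjective (algebraMap Kb v.ResidueField)) (a : Kb) :
    (residueEquiv v hsurj).symm (algebraMap Kb v.ResidueField a) = a :=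
  (residueEquiv v hsurj).symm_apply_apply a

variable {v : Place Kb L} {W' : Affine S} {W0 : Affine K0}

theorem SpecializesTo.isRed (h : SpecializesTo v W' W0) :
    letI := residueAlgebra K0 v
    IsRed v.toValuationSubring (W'⁄L) (W0⁄v.ResidueField) := by
  letI := residueAlgebra K0 v
  refine ⟨h.a1.redTo, h.a2.redTo, h.a3.redTo, h.a4.redTo, h.a6.redTo, ?_⟩
  change (W0.map (algebraMap K0 v.ResidueField)).Δ ≠ 0
  rw [WeierstrassCurve.map_Δ]
  exact (map_ne_zero_iff _ (algebraMap K0 v.ResidueField).injective).mpr h.disc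

/-- **the specialisation homomorphism** `(W'⁄L)(L) → (W0⁄Kb)(Kb)` at the place `v` -/
def spec (h : SpecializesTo v W' W0)
    (hsurj : Function.Surjective (algebraMap Kb v.ResidueField)) :
    (W'⁄L).Point →+ (W0⁄Kb).Point :=
  letI := residueAlgebra K0 v
  haveI := residue_isScalarTower K0 v
  letI : DecidableEq v.ResidueField := Classical.decEq _
  (Point.map (W' := W0) (residueEquiv v hsurj).symm.toAlgHom).comp (redHom h.isRed)

end Spec

/-! ### properties of the specialisation homomorphism -/

section Props

variable {K0 S : Type*} [Field K0] [Algebra K0 Kb] [CommRing S] [Algebra S L]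
  [DecidableEq Kb] [DecidableEq L]
  {v : Place Kb L} {W' : Affine S} {W0 : Affine K0}

theorem some_congr {F : Type*} [Field F] {W : Affine F} {x x' y y' : F} (h : W.Nonsingular x y)
    (hx : x = x') (hy : y = y') :
    ∃ h' : W.Nonsingular x' y', Point.some x y h = Point.some x' y' h' := by
  subst hx hy
  exact ⟨h, rfl⟩

/-- the specialisation of an integral point, in coordinates -/
theorem spec_some_of_near (h : SpecializesTo v W' W0)
    (hsurj : Function.Surjective (algebraMap Kb v.ResidueField)) {x y : L}
    (hxy : (W'⁄L).Nonsingular x y) {a b : Kb} (hx : Near v x a) (hy : Near v y b) :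
    ∃ hab : (W0⁄Kb).Nonsingular a b, spec h hsurj (Point.some x y hxy) = Point.some a b hab := by
  letI := residueAlgebra K0 v
  haveI := residue_isScalarTower K0 v
  letI : DecidableEq v.ResidueField := Classical.decEq _
  have h1 := red_some_of_redTo h.isRed hxy hx.redTo hy.redTo
  have key : spec h hsurj (Point.some x y hxy)
      = Point.map (W' := W0) (residueEquiv v hsurj).symm.toAlgHom
        (red h.isRed (Point.some x y hxy)) := rfl
  rw [key, h1, Point.map_some]
  exact some_congr _ (residueEquiv_symm_algebraMap v hsurj a)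
    (residueEquiv_symm_algebraMap v hsurj b)

theorem spec_eq_zero_iff_red (h : SpecializesTo v W' W0)
    (hsurj : Function.Surjective (algebraMap Kb v.ResidueField)) (P : (W'⁄L).Point) :
    letI := residueAlgebra K0 v
    letI : DecidableEq v.ResidueField := Classical.decEq _
    spec h hsurj P = 0 ↔ red h.isRed P = 0 := by
  letI := residueAlgebra K0 v
  haveI := residue_isScalarTower K0 v
  letI : DecidableEq v.ResidueField := Classical.decEq _
  change Point.map (W' := W0) (residueEquiv v hsurj).symm.toAlgHom (red h.isRed P) = 0 ↔ _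
  constructor
  · intro h0
    exact Point.map_injective (W' := W0) (residueEquiv v hsurj).symm.toAlgHom
      (h0.trans (map_zero _).symm)
  · intro h0
    rw [h0, map_zero]

/-- the kernel of specialisation: the points with a pole at `v` -/
theorem spec_some_eq_zero_iff (h : SpecializesTo v W' W0)
    (hsurj : Function.Surjective (algebraMap Kb v.ResidueField)) {x y : L}
    (hxy : (W'⁄L).Nonsingular x y) :
    spec h hsurj (Point.some x y hxy) = 0 ↔ x ∉ v.toValuationSubring := by
  letI := residueAlgebra K0 v
  letI : DecidableEq v.ResidueField := Classical.decEq _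
  rw [spec_eq_zero_iff_red, red_eq_zero_iff, inKer_some, ← not_le,
    ValuationSubring.valuation_le_one_iff]

/-- a nonzero constant is a unit at every place -/
theorem valuation_natCast_eq_one (v : Place Kb L) {n : ℕ} (hn : (n : Kb) ≠ 0) :
    v.toValuationSubring.valuation (n : L) = 1 := by
  have e1 : (n : L) = algebraMap Kb L (n : Kb) := (map_natCast _ n).symm
  have e2 : ((n : L))⁻¹ = algebraMap Kb L ((n : Kb)⁻¹) := by rw [map_inv₀, e1]
  have h1 : v.toValuationSubring.valuation (n : L) ≤ 1 := by
    rw [ValuationSubring.valuation_le_one_iff, e1]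
    exact v.algebraMap_mem' _
  have h2 : v.toValuationSubring.valuation ((n : L))⁻¹ ≤ 1 := by
    rw [ValuationSubring.valuation_le_one_iff, e2]
    exact v.algebraMap_mem' _
  have hn0 : (n : L) ≠ 0 := by
    rw [e1]
    exact (map_ne_zero_iff _ (algebraMap Kb L).injective).mpr hn
  have hpos : 0 < v.toValuationSubring.valuation (n : L) :=
    zero_lt_iff.mpr ((Valuation.ne_zero_iff _).mpr hn0)
  rw [map_inv₀, inv_le_one₀ hpos] at h2
  exact le_antisymm h1 h2

/-- **specialisation is injective on `n`-torsion**, `n ≠ 0` in `Kb` -/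
theorem eq_of_spec_eq_of_nsmul_eq_zero (h : SpecializesTo v W' W0)
    (hsurj : Function.Surjective (algebraMap Kb v.ResidueField)) {n : ℕ} (hn : (n : Kb) ≠ 0)
    {P Q : (W'⁄L).Point} (hP : n • P = 0) (hQ : n • Q = 0)
    (hPQ : spec h hsurj P = spec h hsurj Q) : P = Q := by
  letI := residueAlgebra K0 v
  haveI := residue_isScalarTower K0 v
  letI : DecidableEq v.ResidueField := Classical.decEq _
  have h1 : red h.isRed P = red h.isRed Q :=
    Point.map_injective (W' := W0) (residueEquiv v hsurj).symm.toAlgHom hPQ
  exact eq_of_red_eq_of_nsmul_eq_zero h.isRed (valuation_natCast_eq_one v hn) hP hQ h1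

end Props

/-! ### equivariance -/

section Equivariance

variable {K0 S : Type*} [Field K0] [Algebra K0 Kb] [CommRing S] [Algebra S L]
  [DecidableEq Kb] [DecidableEq L]
  {v : Place Kb L} {W' : Affine S} {W0 : Affine K0}

omit [DecidableEq Kb] [DecidableEq L] in
/-- a semilinear automorphism fixing the place `v` preserves its valuation -/
theorem adicValuation_smul_of_fixed (γ : SemilinearAut Kb L) (hγ : γ • v = v) (z : L) :
    v.adicValuation (γ • z) = v.adicValuation z := by
  rcases eq_or_ne z 0 with rfl | hz
  · rw [smul_zero]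
  have hz' : γ • z ≠ 0 := by
    rw [SemilinearAut.smul_def]
    exact (map_ne_zero_iff _ (SemilinearAut.toRingAut γ).injective).mpr hz
  have h := SemilinearAut.ord_smul γ v z
  rw [hγ] at h
  rw [adicValuation_eq v hz, adicValuation_eq v hz', h]

/-- **equivariance of specialisation**: an `S`-automorphism `g` of `L` inducing `σ` on the
constants and preserving the valuation of `v` satisfies `spec (g • P) = σ • spec P`. -/
theorem spec_smul (h : SpecializesTo v W' W0)
    (hsurj : Function.Surjective (algebraMap Kb v.ResidueField)) (g : L ≃ₐ[S] L)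
    (σ : Kb ≃ₐ[K0] Kb) (hgσ : ∀ a : Kb, g (algebraMap Kb L a) = algebraMap Kb L (σ a))
    (hgv : ∀ z : L, v.adicValuation (g z) = v.adicValuation z) (P : (W'⁄L).Point) :
    spec h hsurj (g • P) = σ • spec h hsurj P := by
  letI := residueAlgebra K0 v
  letI : DecidableEq v.ResidueField := Classical.decEq _
  rcases P with _ | ⟨x, y, hxy⟩
  · change spec h hsurj (g • (0 : (W'⁄L).Point)) = σ • spec h hsurj 0
    rw [smul_zero, map_zero, smul_zero]
  · have hgxy : (W'⁄L).Nonsingular (g x) (g y) :=
      (W'.baseChange_nonsingular g.toAlgHom.injective ..).mpr hxy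
    have e1 : g • (Point.some x y hxy : (W'⁄L).Point) = Point.some (g x) (g y) hgxy := rfl
    rw [e1]
    by_cases hx : x ∈ v.toValuationSubring
    · have hy : y ∈ v.toValuationSubring := y_mem h.isRed hxy.left hx
      obtain ⟨a, ha⟩ := exists_near hsurj hx
      obtain ⟨b, hb⟩ := exists_near hsurj hy
      have ha' : Near v (g x) (σ a) := by
        unfold Near at ha ⊢
        rw [← hgσ, ← map_sub, hgv]
        exact ha
      have hb' : Near v (g y) (σ b) := by
        unfold Near at hb ⊢
        rw [← hgσ, ← map_sub, hgv]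
        exact hb
      obtain ⟨hab, e2⟩ := spec_some_of_near h hsurj hxy ha hb
      obtain ⟨hab', e3⟩ := spec_some_of_near h hsurj hgxy ha' hb'
      rw [e2, e3]
      rfl
    · have hgx : g x ∉ v.toValuationSubring := by
        rw [mem_iff, hgv, ← mem_iff]
        exact hx
      rw [(spec_some_eq_zero_iff h hsurj hxy).mpr hx, (spec_some_eq_zero_iff h hsurj hgxy).mpr hgx,
        smul_zero]

end Equivariance

/-! ### transfer of the full `n`-torsion between two special fibres -/

section Transfer

variable {K0 S : Type*} [Field K0] [Algebra K0 Kb] [CommRing S] [Algebra S L]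
  [DecidableEq Kb] [DecidableEq L]

/-- the restriction of an additive map to the `n`-torsion -/
def torsionMap {M N : Type*} [AddCommGroup M] [AddCommGroup N] (f : M →+ N) (n : ℕ) :
    Submodule.torsionBy ℤ M (n : ℤ) →+ Submodule.torsionBy ℤ N (n : ℤ) where
  toFun x := ⟨f (x : M), by
    have hx := x.2
    rw [Submodule.mem_torsionBy_iff] at hx ⊢
    rw [← map_zsmul, hx, map_zero]⟩
  map_zero' := Subtype.ext (map_zero f)
  map_add' x y := Subtype.ext (map_add f (x : M) (y : M))

@[simp] theorem torsionMap_coe {M N : Type*} [AddCommGroup M] [AddCommGroup N] (f : M →+ N)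
    (n : ℕ) (x : Submodule.torsionBy ℤ M (n : ℤ)) :
    ((torsionMap f n x : Submodule.torsionBy ℤ N (n : ℤ)) : N) = f (x : M) := rfl

theorem nsmul_eq_zero_of_mem {M : Type*} [AddCommGroup M] {n : ℕ}
    (x : Submodule.torsionBy ℤ M (n : ℤ)) : n • (x : M) = 0 := by
  have hx := x.2
  rw [Submodule.mem_torsionBy_iff] at hx
  rwa [natCast_zsmul] at hx

/-- **(C4), generic form.**  If `W'⁄L` has at least `n²` points killed by `n` over `L`, it
specialises at `v₀`, `v₁` to elliptic curves `W₀⁄Kb`, `W₁⁄Kb` with exactly `n²` such points, and every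
`σ ∈ Aut(Kb/K0)` extends to an `S`-automorphism of `L` preserving the valuations of `v₀` and `v₁`,
then there is an `Aut(Kb/K0)`-equivariant additive bijection `W₀[n] ≃ W₁[n]`. -/
theorem exists_equiv_of_full {v₀ v₁ : Place Kb L} {W' : Affine S} {W₀ W₁ : Affine K0}
    (h₀ : SpecializesTo v₀ W' W₀) (h₁ : SpecializesTo v₁ W' W₁)
    (hs₀ : Function.Surjective (algebraMap Kb v₀.ResidueField))
    (hs₁ : Function.Surjective (algebraMap Kb v₁.ResidueField))
    {n : ℕ} (hn : (n : Kb) ≠ 0)
    (hfull : n ^ 2 ≤ Nat.card (Submodule.torsionBy ℤ (W'⁄L).Point (n : ℤ)))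
    (hc₀ : Nat.card (Submodule.torsionBy ℤ (W₀⁄Kb).Point (n : ℤ)) = n ^ 2)
    (hc₁ : Nat.card (Submodule.torsionBy ℤ (W₁⁄Kb).Point (n : ℤ)) = n ^ 2)
    (hlift : ∀ σ : Kb ≃ₐ[K0] Kb, ∃ g : L ≃ₐ[S] L,
      (∀ a : Kb, g (algebraMap Kb L a) = algebraMap Kb L (σ a)) ∧
      (∀ z : L, v₀.adicValuation (g z) = v₀.adicValuation z) ∧
      (∀ z : L, v₁.adicValuation (g z) = v₁.adicValuation z)) :
    ∃ φ : Submodule.torsionBy ℤ (W₀⁄Kb).Point (n : ℤ) ≃+
        Submodule.torsionBy ℤ (W₁⁄Kb).Point (n : ℤ),
      ∀ (σ : Kb ≃ₐ[K0] Kb) (x : Submodule.torsionBy ℤ (W₀⁄Kb).Point (n : ℤ)),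
        φ (σ • x) = σ • φ x := by
  have hn0 : n ≠ 0 := by
    rintro rfl
    exact hn Nat.cast_zero
  have hpos : 0 < n ^ 2 := by positivity
  -- the two restricted specialisation maps are bijective
  have key : ∀ {v : Place Kb L} {W0 : Affine K0} (h : SpecializesTo v W' W0)
      (hs : Function.Surjective (algebraMap Kb v.ResidueField))
      (_ : Nat.card (Submodule.torsionBy ℤ (W0⁄Kb).Point (n : ℤ)) = n ^ 2),
      Function.Bijective (torsionMap (spec h hs) n) := by
    intro v W0 h hs hc
    have hinj : Function.Injective (torsionMap (spec h hs) n) := by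
      intro P Q hPQ
      apply Subtype.ext
      exact eq_of_spec_eq_of_nsmul_eq_zero h hs hn (nsmul_eq_zero_of_mem P)
        (nsmul_eq_zero_of_mem Q) (congrArg Subtype.val hPQ)
    haveI : Finite (Submodule.torsionBy ℤ (W0⁄Kb).Point (n : ℤ)) :=
      Nat.finite_of_card_ne_zero (by omega)
    exact hinj.bijective_of_nat_card_le (by omega)
  let e₀ := AddEquiv.ofBijective (torsionMap (spec h₀ hs₀) n) (key h₀ hs₀ hc₀)
  let e₁ := AddEquiv.ofBijective (torsionMap (spec h₁ hs₁) n) (key h₁ hs₁ hc₁)
  refine ⟨e₀.symm.trans e₁, fun σ x => ?_⟩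
  obtain ⟨g, hgσ, hg₀, hg₁⟩ := hlift σ
  obtain ⟨P, rfl⟩ := e₀.surjective x
  have h0 : e₀ (g • P) = σ • e₀ P :=
    Subtype.ext (spec_smul h₀ hs₀ g σ hgσ hg₀ (P : (W'⁄L).Point))
  have h1 : e₁ (g • P) = σ • e₁ P :=
    Subtype.ext (spec_smul h₁ hs₁ g σ hgσ hg₁ (P : (W'⁄L).Point))
  rw [← h0, AddEquiv.trans_apply, AddEquiv.symm_apply_apply, AddEquiv.trans_apply,
    AddEquiv.symm_apply_apply, h1]

end Transfer

end Fermat.Agent.S52.Const.SpecAt
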