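import Mathlib
import Fermat.Agent.S18.A.Instances
import Fermat.Agent.S18.A.FibreSep
import Fermat.Agent.S52.Const.SpecAt

/-!
# PROJECT W (S52), T2 = constancy, brick (C4), the line: specialisation of a family over `K0[X]`

`K0 ⊆ Kb` fields, `Kb` algebraically closed of characteristic zero, `L = RatFunc Kb`.  A Weierstrass
curve `WX` over `K0[X]` (a one-parameter family) has the generic fibre `WX.map (toL K0 Kb)` over `L`
and the special fibres `WX.map (evalRingHom c)` over `K0`, `c : K0`.

* `toL K0 Kb : K0[X] →+* RatFunc Kb`;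
* `placeAt c : Place Kb (RatFunc Kb)`, THE place `X = c`, `near_X_placeAt`, `eq_placeAt`;
* `specializesTo` : the generic fibre specialises at `X = c` to the special fibre;
* `liftAut σ : RatFunc Kb ≃ₐ[K0[X]] RatFunc Kb`, the coefficientwise action of `σ ∈ Aut(Kb/K0)`;
* `exists_equiv_line` : **(C4)**: if the generic fibre has `≥ n²` points killed by `n` over `L`,
  any two nonsingular special fibres at `c₀, c₁ ∈ K0` with `n²` such points over `Kb` have
  `Aut(Kb/K0)`-equivariantly isomorphic `n`-torsion.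
-/

set_option autoImplicit false
set_option linter.unusedSectionVars false
set_option linter.style.haveILetI false

noncomputable section

namespace Fermat.Agent.S52.Const.SpecialLine

open AlgebraicCurve WeierstrassCurve WeierstrassCurve.Affine Polynomial IntermediateField
open Fermat.Agent.S24.FF Fermat.Agent.S24.Ord Fermat.Agent.S18.A
open Fermat.Agent.S52.Const.SpecAt
open scoped IntermediateField.algebraAdjoinAdjoin

variable (K0 Kb : Type*) [Field K0] [Field Kb] [Algebra K0 Kb]

/-- `K0[X] → Kb(X)` -/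
def toL : K0[X] →+* RatFunc Kb :=
  (algebraMap Kb[X] (RatFunc Kb)).comp (Polynomial.mapRingHom (algebraMap K0 Kb))

theorem toL_apply (p : K0[X]) :
    toL K0 Kb p = algebraMap Kb[X] (RatFunc Kb) (p.map (algebraMap K0 Kb)) := rfl

/-- the `K0[X]`-algebra structure of `Kb(X)` -/
@[reducible] def algL : Algebra K0[X] (RatFunc Kb) := (toL K0 Kb).toAlgebra

variable {Kb}

/-! ### `Kb(X)` as a function field, the place `X = c` -/

section Place

variable [IsAlgClosed Kb] [CharZero Kb]

theorem isFF_X : IsFF Kb (RatFunc.X : RatFunc Kb) := by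
  refine ⟨RatFunc.transcendental_X, ?_⟩
  rw [RatFunc.adjoin_X]
  exact Module.finite_of_finrank_pos (by rw [IntermediateField.finrank_top]; exact one_pos)

theorem finrank_X : Module.finrank Kb⟮(RatFunc.X : RatFunc Kb)⟯ (RatFunc Kb) = 1 := by
  rw [RatFunc.adjoin_X, IntermediateField.finrank_top]

theorem isSeparable_X : Algebra.IsSeparable Kb⟮(RatFunc.X : RatFunc Kb)⟯ (RatFunc Kb) := by
  have := (isFF_X (Kb := Kb)).finite
  infer_instance

/-- THE place `X = c` of `Kb(X)` -/
def placeAt (c : Kb) : Place Kb (RatFunc Kb) :=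
  (Instances.exists_place_over isFF_X isSeparable_X c).choose

theorem near_X_placeAt (c : Kb) : Near (placeAt c) (RatFunc.X : RatFunc Kb) c :=
  (Instances.exists_place_over isFF_X isSeparable_X c).choose_spec

/-- uniqueness of the place `X = c` -/
theorem eq_placeAt {c : Kb} {v : Place Kb (RatFunc Kb)} (hv : Near v (RatFunc.X : RatFunc Kb) c) :
    v = placeAt c := by
  have h1 : v ∈ FibreSep.zeros isFF_X isSeparable_X c := (FibreSep.mem_zeros _ _ c v).mpr hv
  have h2 : placeAt c ∈ FibreSep.zeros isFF_X isSeparable_X c :=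
    (FibreSep.mem_zeros _ _ c _).mpr (near_X_placeAt c)
  have hcard := FibreSep.card_zeros_le (isFF_X (Kb := Kb)) isSeparable_X c
  rw [finrank_X] at hcard
  exact Finset.card_le_one.mp hcard v h1 _ h2

theorem residue_surjective (v : Place Kb (RatFunc Kb)) :
    Function.Surjective (algebraMap Kb v.ResidueField) :=
  algebraMap_residue_surjective isFF_X v

/-- polynomials are integral at every place where `X` is -/
theorem near_algebraMap_poly {v : Place Kb (RatFunc Kb)} {c : Kb}
    (hv : Near v (RatFunc.X : RatFunc Kb) c) (q : Kb[X]) :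
    Near v (algebraMap Kb[X] (RatFunc Kb) q) (q.eval c) := by
  induction q using Polynomial.induction_on' with
  | add p q hp hq =>
    rw [map_add, eval_add]
    exact near_of_redTo (by rw [map_add]; exact hp.redTo.add hq.redTo)
  | monomial n a =>
    rw [← C_mul_X_pow_eq_monomial, map_mul, map_pow, eval_mul, eval_pow, eval_C, eval_X,
      RatFunc.algebraMap_C, RatFunc.algebraMap_X]
    refine near_of_redTo ?_
    rw [map_mul, map_pow]
    exact (near_algebraMap a).redTo.mul (hv.redTo.pow n)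

end Place

/-! ### the family: specialisation of the coefficients -/

section Family

variable [IsAlgClosed Kb] [CharZero Kb]

theorem near_toL {v : Place Kb (RatFunc Kb)} {c0 : K0}
    (hv : Near v (RatFunc.X : RatFunc Kb) (algebraMap K0 Kb c0)) (p : K0[X]) :
    Near v (toL K0 Kb p) (algebraMap K0 Kb (p.eval c0)) := by
  have h := near_algebraMap_poly hv (p.map (algebraMap K0 Kb))
  rwa [Polynomial.eval_map_apply] at h

variable [DecidableEq Kb] [DecidableEq (RatFunc Kb)]

/-- the generic fibre specialises at `X = c0` to the special fibre -/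
theorem specializesTo (WX : WeierstrassCurve K0[X]) (c0 : K0)
    (hΔ : (WX.map (Polynomial.evalRingHom c0)).Δ ≠ 0) :
    letI := algL K0 Kb
    SpecializesTo (placeAt (algebraMap K0 Kb c0)) (WX : Affine K0[X])
      ((WX.map (Polynomial.evalRingHom c0) : WeierstrassCurve K0) : Affine K0) := by
  letI := algL K0 Kb
  have hv := near_X_placeAt (algebraMap K0 Kb c0)
  exact ⟨near_toL K0 hv _, near_toL K0 hv _, near_toL K0 hv _, near_toL K0 hv _,
    near_toL K0 hv _, hΔ⟩

end Family

/-! ### the coefficientwise Galois action on `Kb(X)` -/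

section Lift

variable {K0}

/-- the coefficientwise action of `σ` on `Kb(X)` -/
def liftRingEquiv (σ : Kb ≃ₐ[K0] Kb) : RatFunc Kb ≃+* RatFunc Kb :=
  IsFractionRing.ringEquivOfRingEquiv (Polynomial.mapEquiv σ.toRingEquiv)

theorem liftRingEquiv_algebraMap (σ : Kb ≃ₐ[K0] Kb) (q : Kb[X]) :
    liftRingEquiv σ (algebraMap Kb[X] (RatFunc Kb) q)
      = algebraMap Kb[X] (RatFunc Kb) (q.map (σ : Kb →+* Kb)) :=
  IsFractionRing.ringEquivOfRingEquiv_algebraMap _ q

theorem liftRingEquiv_const (σ : Kb ≃ₐ[K0] Kb) (a : Kb) :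
    liftRingEquiv σ (algebraMap Kb (RatFunc Kb) a) = algebraMap Kb (RatFunc Kb) (σ a) := by
  rw [RatFunc.algebraMap_eq_C, ← RatFunc.algebraMap_C, liftRingEquiv_algebraMap, Polynomial.map_C,
    RatFunc.algebraMap_C]
  rfl

theorem liftRingEquiv_X (σ : Kb ≃ₐ[K0] Kb) :
    liftRingEquiv σ (RatFunc.X : RatFunc Kb) = RatFunc.X := by
  rw [← RatFunc.algebraMap_X, liftRingEquiv_algebraMap, Polynomial.map_X]

theorem liftRingEquiv_toL (σ : Kb ≃ₐ[K0] Kb) (p : K0[X]) :
    liftRingEquiv σ (toL K0 Kb p) = toL K0 Kb p := by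
  rw [toL_apply, liftRingEquiv_algebraMap, Polynomial.map_map]
  congr 2
  ext a
  exact σ.commutes a

/-- the coefficientwise action of `σ` on `Kb(X)`, as a `K0[X]`-algebra automorphism -/
def liftAut (σ : Kb ≃ₐ[K0] Kb) :
    letI := algL K0 Kb
    RatFunc Kb ≃ₐ[K0[X]] RatFunc Kb :=
  letI := algL K0 Kb
  AlgEquiv.ofRingEquiv (f := liftRingEquiv σ) (liftRingEquiv_toL σ)

theorem liftAut_apply (σ : Kb ≃ₐ[K0] Kb) (z : RatFunc Kb) :
    letI := algL K0 Kb
    liftAut σ z = liftRingEquiv σ z := rfl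

/-- the coefficientwise action as a semilinear automorphism -/
def liftSemi (σ : Kb ≃ₐ[K0] Kb) : SemilinearAut Kb (RatFunc Kb) :=
  ⟨(liftRingEquiv σ, σ.toRingEquiv), fun a => liftRingEquiv_const σ a⟩

theorem liftSemi_smul (σ : Kb ≃ₐ[K0] Kb) (z : RatFunc Kb) :
    liftSemi σ • z = liftRingEquiv σ z := rfl

variable [IsAlgClosed Kb] [CharZero Kb]

/-- the coefficientwise action fixes the places at the `K0`-rational points -/
theorem liftSemi_smul_placeAt (σ : Kb ≃ₐ[K0] Kb) (c0 : K0) :
    liftSemi σ • placeAt (algebraMap K0 Kb c0) = placeAt (algebraMap K0 Kb c0) := by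
  set c := algebraMap K0 Kb c0 with hc
  set f : RatFunc Kb := RatFunc.X - algebraMap Kb (RatFunc Kb) c with hf
  have hf0 : f ≠ 0 := sub_ne_zero.mpr (isFF_X.ne_algebraMap c)
  have hfix : liftSemi σ • f = f := by
    rw [liftSemi_smul, hf, map_sub, liftRingEquiv_X, liftRingEquiv_const, hc, σ.commutes]
  have h1 := SemilinearAut.ord_smul (liftSemi σ) (placeAt c) f
  rw [hfix] at h1
  have h2 : 0 < (placeAt c).ord f := (ord_pos_iff _ hf0).mpr (near_X_placeAt c)
  refine eq_placeAt ?_
  unfold Near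
  rw [← hf, ← ord_pos_iff _ hf0, h1]
  exact h2

theorem adicValuation_liftAut (σ : Kb ≃ₐ[K0] Kb) (c0 : K0) (z : RatFunc Kb) :
    letI := algL K0 Kb
    (placeAt (algebraMap K0 Kb c0)).adicValuation (liftAut σ z)
      = (placeAt (algebraMap K0 Kb c0)).adicValuation z :=
  adicValuation_smul_of_fixed (liftSemi σ) (liftSemi_smul_placeAt σ c0) z

end Lift

/-! ### (C4) -/

section Main

variable {K0} [IsAlgClosed Kb] [CharZero Kb] [DecidableEq Kb] [DecidableEq (RatFunc Kb)]

/-- **(C4)**: a one-parameter family `WX` over `K0[X]` whose generic fibre has (at least) `n²`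
points killed by `n` over `Kb(X)` has `Aut(Kb/K0)`-equivariantly isomorphic `n`-torsion at any two
`K0`-rational parameters `c₀, c₁` with nonsingular fibres. -/
theorem exists_equiv_line (WX : WeierstrassCurve K0[X]) (c₀ c₁ : K0)
    (hΔ₀ : (WX.map (Polynomial.evalRingHom c₀)).Δ ≠ 0)
    (hΔ₁ : (WX.map (Polynomial.evalRingHom c₁)).Δ ≠ 0) {n : ℕ} (hn : (n : Kb) ≠ 0)
    (hfull : n ^ 2 ≤ Nat.card
      (Submodule.torsionBy ℤ (WX.map (toL K0 Kb)).toAffine.Point (n : ℤ)))
    (hc₀ : Nat.card (Submodule.torsionBy ℤ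
      (((WX.map (Polynomial.evalRingHom c₀) : WeierstrassCurve K0) : Affine K0)⁄Kb).Point
        (n : ℤ)) = n ^ 2)
    (hc₁ : Nat.card (Submodule.torsionBy ℤ
      (((WX.map (Polynomial.evalRingHom c₁) : WeierstrassCurve K0) : Affine K0)⁄Kb).Point
        (n : ℤ)) = n ^ 2) :
    ∃ φ : Submodule.torsionBy ℤ
        (((WX.map (Polynomial.evalRingHom c₀) : WeierstrassCurve K0) : Affine K0)⁄Kb).Point (n : ℤ) ≃+
      Submodule.torsionBy ℤ
        (((WX.map (Polynomial.evalRingHom c₁) : WeierstrassCurve K0) : Affine K0)⁄Kb).Point (n : ℤ),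
      ∀ (σ : Kb ≃ₐ[K0] Kb) (x : Submodule.torsionBy ℤ
        (((WX.map (Polynomial.evalRingHom c₀) : WeierstrassCurve K0) : Affine K0)⁄Kb).Point (n : ℤ)),
        φ (σ • x) = σ • φ x := by
  letI := algL K0 Kb
  exact exists_equiv_of_full (S := K0[X]) (W' := (WX : Affine K0[X]))
    (specializesTo K0 WX c₀ hΔ₀) (specializesTo K0 WX c₁ hΔ₁)
    (residue_surjective _) (residue_surjective _) hn hfull hc₀ hc₁
    (fun σ => ⟨liftAut σ, fun a => liftRingEquiv_const σ a, adicValuation_liftAut σ c₀,
      adicValuation_liftAut σ c₁⟩)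

end Main

end Fermat.Agent.S52.Const.SpecialLine
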