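import Mathlib
import Fermat.Agent.S58.ESide
import Fermat.Agent.S52.Const.SpecialLine

/-!
# PROJECT W (S52), T2 = constancy, brick (C4), the consumer form over `ℚ`

`WX` a Weierstrass curve over `ℚ[X]` whose generic fibre over `ℚ̄(X)` has (at least) `n²` points
killed by `n`.  For `c₀, c₁ : ℚ` with nonsingular fibres there is a `G_ℚ`-equivariant additive
bijection between the `n`-torsion of the two fibres over `ℚ̄`.

* `exists_equiv_rat`       : in terms of the fibres `WX.map (evalRingHom c)` over `ℚ`;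
* `exists_equiv_of_family` : in terms of two integral models `W`, `W₁` whose base changes to `ℚ` ARE
  the fibres at `c₀`, `c₁`: the literal input `φ`, `hφ` of `S52/ApDict.dvd_ap_sub_five`.
-/

set_option autoImplicit false
set_option linter.unusedSectionVars false
set_option linter.style.haveILetI false

noncomputable section

namespace Fermat.Agent.S52.Const.Glue

open WeierstrassCurve WeierstrassCurve.Affine Polynomial
open scoped WeierstrassCurve.Affine
open Fermat.Agent.S58.TateE (WQ Pts)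
open Fermat.Agent.S52.Const.SpecialLine

local notation "Qb" => AlgebraicClosure ℚ
local notation "GQ" => (AlgebraicClosure ℚ ≃ₐ[ℚ] AlgebraicClosure ℚ)

/-- **(C4) over `ℚ`.** -/
theorem exists_equiv_rat [DecidableEq (RatFunc Qb)] (WX : WeierstrassCurve ℚ[X]) (c₀ c₁ : ℚ)
    (hΔ₀ : (WX.map (Polynomial.evalRingHom c₀)).Δ ≠ 0)
    (hΔ₁ : (WX.map (Polynomial.evalRingHom c₁)).Δ ≠ 0) {n : ℕ} (hn : 0 < n)
    (hfull : n ^ 2 ≤ Nat.card
      (Submodule.torsionBy ℤ (WX.map (toL ℚ Qb)).toAffine.Point (n : ℤ))) :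
    ∃ φ : Submodule.torsionBy ℤ
        (((WX.map (Polynomial.evalRingHom c₀) : WeierstrassCurve ℚ) : Affine ℚ)⁄Qb).Point (n : ℤ) ≃+
      Submodule.torsionBy ℤ
        (((WX.map (Polynomial.evalRingHom c₁) : WeierstrassCurve ℚ) : Affine ℚ)⁄Qb).Point (n : ℤ),
      ∀ (σ : GQ) (x : Submodule.torsionBy ℤ
        (((WX.map (Polynomial.evalRingHom c₀) : WeierstrassCurve ℚ) : Affine ℚ)⁄Qb).Point (n : ℤ)),
        φ (σ • x) = σ • φ x := by
  have hn' : ((n : ℕ) : Qb) ≠ 0 := Nat.cast_ne_zero.mpr hn.ne'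
  exact exists_equiv_line WX c₀ c₁ hΔ₀ hΔ₁ hn' hfull
    (Fermat.Agent.S13.CU.FreyInputs.torsionCard_rat _ hΔ₀ hn)
    (Fermat.Agent.S13.CU.FreyInputs.torsionCard_rat _ hΔ₁ hn)

/-- **(C4), consumer form**: two integral models `W`, `W₁` whose base changes to `ℚ` are the fibres
of the family `WX` at `c₀`, `c₁ : ℚ`. -/
theorem exists_equiv_of_family [DecidableEq (RatFunc Qb)] (W W₁ : WeierstrassCurve ℤ)
    (hΔ : W.Δ ≠ 0) (hΔ₁ : W₁.Δ ≠ 0) (WX : WeierstrassCurve ℚ[X]) (c₀ c₁ : ℚ)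
    (h₀ : WX.map (Polynomial.evalRingHom c₀) = WQ W)
    (h₁ : WX.map (Polynomial.evalRingHom c₁) = WQ W₁) {n : ℕ} (hn : 0 < n)
    (hfull : n ^ 2 ≤ Nat.card
      (Submodule.torsionBy ℤ (WX.map (toL ℚ Qb)).toAffine.Point (n : ℤ))) :
    ∃ φ : Submodule.torsionBy ℤ (Pts W) (n : ℤ) ≃+ Submodule.torsionBy ℤ (Pts W₁) (n : ℤ),
      ∀ (σ : GQ) (x : Submodule.torsionBy ℤ (Pts W) (n : ℤ)), φ (σ • x) = σ • φ x := by
  have hQ : ∀ V : WeierstrassCurve ℤ, V.Δ ≠ 0 → (WQ V).Δ ≠ 0 := by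
    intro V hV
    rw [WeierstrassCurve.map_Δ]
    exact fun h => hV (Int.cast_injective (α := ℚ) (by simpa using h))
  have key := exists_equiv_rat WX c₀ c₁ (by rw [h₀]; exact hQ W hΔ) (by rw [h₁]; exact hQ W₁ hΔ₁)
    hn hfull
  rw [h₀, h₁] at key
  exact key

end Fermat.Agent.S52.Const.Glue
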