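/-
PROJECT W (S52, the 3-5 switch), leaf (C4a) (helper27): **the short model**.

For an integral Weierstrass model `W` the rational change of variables
`(x, y) ↦ (x / 36 - b₂ / 12, y / 216 - a₁ x / 72 + …)` carries `W ⊗ ℚ` to the short model
`shortQ W : y² = x³ + 3 h x + 2 k`, `h = -9 c₄(W)`, `k = -27 c₆(W)` (so `a₄ = -27 c₄`,
`a₆ = -54 c₆`).  The induced isomorphism of `ℚ̄`-points (`S13/CU/VarChange`, made Galois-equivariant
in `S41/NonEis/Transfer`, both on main) gives a `G_ℚ`-equivariant additive bijection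
`W[p] ≃+ (shortQ W)[p]`; two integral models with the same `c₄`, `c₆` have equivariantly
isomorphic `p`-torsion.  No hypothesis on `Δ`.
-/
import Fermat.Agent.S41.NonEis.Transfer
import Fermat.Agent.S41.NonEis.Inst

set_option autoImplicit false
set_option linter.unusedSectionVars false
set_option linter.style.haveILetI false

noncomputable section

namespace Fermat.Agent.S52.Const.Short

open WeierstrassCurve WeierstrassCurve.Affine
open scoped WeierstrassCurve.Affine
open Fermat.Agent.S58.TateE (WQ Pts)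
open Fermat.Agent.S41.NonEis.Inst
open Fermat.Agent.S41.NonEis.Transfer
open Fermat.Agent.S30.Algebra.Cyclotomic (Qbar GQ)

/-! ### generic transport -/

section Generic

/-- transport of `ℚ̄`-points along an equality of curves over `ℚ`. -/
def castQ {E₁ E₂ : WeierstrassCurve ℚ} (h : E₁ = E₂) : (E₁⁄Qbar).Point ≃+ (E₂⁄Qbar).Point := by
  subst h
  exact AddEquiv.refl _

theorem castQ_smul {E₁ E₂ : WeierstrassCurve ℚ} (h : E₁ = E₂) (σ : GQ) (P : (E₁⁄Qbar).Point) :
    castQ h (σ • P) = σ • castQ h P := by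
  subst h
  rfl

variable {E₁ E₂ : WeierstrassCurve ℚ}

/-- an additive equivalence of point groups restricted to `n`-torsion. -/
def torsionEquiv (e : (E₁⁄Qbar).Point ≃+ (E₂⁄Qbar).Point) (n : ℕ) :
    Submodule.torsionBy ℤ (E₁⁄Qbar).Point n ≃+ Submodule.torsionBy ℤ (E₂⁄Qbar).Point n where
  toFun v := ⟨e v, by
    rw [Submodule.mem_torsionBy_iff, ← map_zsmul, (Submodule.mem_torsionBy_iff _ _).mp v.2,
      map_zero]⟩
  invFun w := ⟨e.symm w, by
    rw [Submodule.mem_torsionBy_iff, ← map_zsmul, (Submodule.mem_torsionBy_iff _ _).mp w.2,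
      map_zero]⟩
  left_inv v := Subtype.ext (e.symm_apply_apply _)
  right_inv w := Subtype.ext (e.apply_symm_apply _)
  map_add' v w := Subtype.ext (map_add e _ _)

theorem coe_torsionEquiv (e : (E₁⁄Qbar).Point ≃+ (E₂⁄Qbar).Point) (n : ℕ)
    (v : Submodule.torsionBy ℤ (E₁⁄Qbar).Point n) :
    ((torsionEquiv e n v : Submodule.torsionBy ℤ (E₂⁄Qbar).Point n) : (E₂⁄Qbar).Point) =
      e (v : (E₁⁄Qbar).Point) := rfl

theorem torsionEquiv_smul (e : (E₁⁄Qbar).Point ≃+ (E₂⁄Qbar).Point)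
    (he : ∀ (σ : GQ) P, e (σ • P) = σ • e P) (n : ℕ) (σ : GQ)
    (v : Submodule.torsionBy ℤ (E₁⁄Qbar).Point n) :
    torsionEquiv e n (σ • v) = σ • torsionEquiv e n v :=
  Subtype.ext (he σ _)

end Generic

/-! ### the short model -/

variable (W : WeierstrassCurve ℤ)

/-- the short curve `y² = x³ + 3 h x + 2 k` over `ℚ`, for integers `h`, `k`. -/
def shortHK (h k : ℤ) : WeierstrassCurve ℚ :=
  ⟨0, 0, 0, ((3 * h : ℤ) : ℚ), ((2 * k : ℤ) : ℚ)⟩

/-- the short model `y² = x³ + 3 h x + 2 k`, `h = -9 c₄`, `k = -27 c₆`, over `ℚ`. -/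
def shortQ : WeierstrassCurve ℚ :=
  ⟨0, 0, 0, ((3 * (-9 * W.c₄) : ℤ) : ℚ), ((2 * (-27 * W.c₆) : ℤ) : ℚ)⟩

theorem shortQ_eq_shortHK : shortQ W = shortHK (-9 * W.c₄) (-27 * W.c₆) := rfl

/-- the short curve over `ℚ̄`, coefficients written out. -/
theorem shortHK_baseChange (h k : ℤ) :
    ((shortHK h k)⁄Qbar : WeierstrassCurve Qbar) = ⟨0, 0, 0, 3 * (h : Qbar), 2 * (k : Qbar)⟩ := by
  ext <;> simp [shortHK]

/-- the change of variables from `W ⊗ ℚ` to the short model. -/
def chg : VariableChange ℚ where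
  u := Units.mk0 (1 / 6) (by norm_num)
  r := -(W.b₂ : ℚ) / 12
  s := -(W.a₁ : ℚ) / 2
  t := -((W.a₃ : ℚ) + -(W.b₂ : ℚ) / 12 * (W.a₁ : ℚ)) / 2

theorem chg_smul : chg W • WQ W = shortQ W := by
  have hu : (((chg W).u⁻¹ : ℚˣ) : ℚ) = 6 := by
    simp [chg]
  ext
  · rw [variableChange_a₁, hu]
    simp only [shortQ, chg, WQ, map_a₁, eq_intCast]
    ring
  · rw [variableChange_a₂, hu]
    simp only [shortQ, chg, WQ, map_a₁, map_a₂, eq_intCast, WeierstrassCurve.b₂]
    push_cast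
    ring
  · rw [variableChange_a₃, hu]
    simp only [shortQ, chg, WQ, map_a₁, map_a₃, eq_intCast]
    ring
  · rw [variableChange_a₄, hu]
    simp only [shortQ, chg, WQ, map_a₁, map_a₂, map_a₃, map_a₄, eq_intCast, WeierstrassCurve.b₂,
      WeierstrassCurve.b₄, WeierstrassCurve.c₄]
    push_cast
    ring
  · rw [variableChange_a₆, hu]
    simp only [shortQ, chg, WQ, map_a₁, map_a₂, map_a₃, map_a₄, map_a₆, eq_intCast,
      WeierstrassCurve.b₂, WeierstrassCurve.b₄, WeierstrassCurve.b₆, WeierstrassCurve.c₆]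
    push_cast
    ring

/-- **`E(ℚ̄) ≃+ E_short(ℚ̄)`.** -/
def equivShort : Pts W ≃+ ((shortQ W)⁄Qbar).Point :=
  (ptEquiv (WQ W) (chg W)).symm.trans (castQ (chg_smul W))

theorem equivShort_smul (σ : GQ) (P : Pts W) : equivShort W (σ • P) = σ • equivShort W P := by
  unfold equivShort
  rw [AddEquiv.trans_apply, AddEquiv.trans_apply, ← castQ_smul]
  congr 1
  apply (ptEquiv (WQ W) (chg W)).injective
  rw [ptEquiv_smul, AddEquiv.apply_symm_apply, AddEquiv.apply_symm_apply]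

variable (p : ℕ)

/-- **`W[p] ≃+ (shortQ W)[p]`, `G_ℚ`-equivariantly.** -/
theorem exists_equiv_short :
    ∃ φ : Vp W p ≃+ Submodule.torsionBy ℤ ((shortQ W)⁄Qbar).Point p,
      ∀ (σ : GQ) (x : Vp W p), φ (σ • x) = σ • φ x :=
  ⟨torsionEquiv (equivShort W) p, torsionEquiv_smul (equivShort W) (equivShort_smul W) p⟩

/-- **the glue for (T2)**: an equivariant bijection between the `p`-torsion of the short models
gives one between the `p`-torsion of the integral models. -/
theorem exists_equiv_of_short {W W' : WeierstrassCurve ℤ}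
    (h : ∃ ψ : Submodule.torsionBy ℤ ((shortQ W)⁄Qbar).Point p ≃+
        Submodule.torsionBy ℤ ((shortQ W')⁄Qbar).Point p,
      ∀ (σ : GQ) x, ψ (σ • x) = σ • ψ x) :
    ∃ φ : Vp W p ≃+ Vp W' p, ∀ (σ : GQ) (x : Vp W p), φ (σ • x) = σ • φ x := by
  obtain ⟨ψ, hψ⟩ := h
  obtain ⟨φ₁, h₁⟩ := exists_equiv_short W p
  obtain ⟨φ₂, h₂⟩ := exists_equiv_short W' p
  refine ⟨(φ₁.trans ψ).trans φ₂.symm, fun σ x => ?_⟩
  show φ₂.symm (ψ (φ₁ (σ • x))) = σ • φ₂.symm (ψ (φ₁ x))
  apply φ₂.injective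
  rw [AddEquiv.apply_symm_apply, h₂, AddEquiv.apply_symm_apply, h₁, hψ]

theorem shortQ_congr {W W' : WeierstrassCurve ℤ} (h4 : W.c₄ = W'.c₄) (h6 : W.c₆ = W'.c₆) :
    shortQ W = shortQ W' := by
  unfold shortQ
  rw [h4, h6]

/-- **two integral models with the same `c₄`, `c₆` have equivariantly isomorphic `p`-torsion.** -/
theorem exists_equiv_of_c_eq {W W' : WeierstrassCurve ℤ} (h4 : W.c₄ = W'.c₄) (h6 : W.c₆ = W'.c₆) :
    ∃ φ : Vp W p ≃+ Vp W' p, ∀ (σ : GQ) (x : Vp W p), φ (σ • x) = σ • φ x := by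
  let e : Pts W ≃+ Pts W' :=
    ((equivShort W).trans (castQ (shortQ_congr h4 h6))).trans (equivShort W').symm
  have he : ∀ (σ : GQ) (P : Pts W), e (σ • P) = σ • e P := by
    intro σ P
    show (equivShort W').symm (castQ (shortQ_congr h4 h6) (equivShort W (σ • P))) =
      σ • (equivShort W').symm (castQ (shortQ_congr h4 h6) (equivShort W P))
    apply (equivShort W').injective
    rw [AddEquiv.apply_symm_apply, equivShort_smul W', AddEquiv.apply_symm_apply,
      equivShort_smul W, castQ_smul]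
  exact ⟨torsionEquiv e p, torsionEquiv_smul e he p⟩

end Fermat.Agent.S52.Const.Short
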