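import Mathlib
import Fermat.Agent.S52.Seam
import Fermat.Agent.S52.Const.Short
import Fermat.Agent.S52.Const.Torsion.Basis
import Fermat.Agent.S52.Const.Glue

/-!
# PROJECT W (S52), T2 = constancy: `ConstSeam` from ONE polynomial statement about Klein's line

`KleinLine` : for integers `h, k` with `k² + h³ ≠ 0` there are `u, v ∈ ℚ̄[X]` with
`27 H(u, v) = 3 Hf(h, k, X)`, `54 T(u, v) = 2 Tf(h, k, X)`, `f(u, v) ≠ 0`
(`H, T, f` Klein's forms of `Const/Torsion/Forms`, `Hf, Tf` the family of record `KleinFamily`):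
the family of record IS Klein's family along a line `P' + 3 X · X(P')`.  It follows from the
substitution identities of `KleinCoprime` and `T3/Generic/Point.exists_point_short`.

`constSeam_of_kleinLine : KleinLine → Seam.ConstSeam`:
* the family `WX = ⟨0, 0, 0, 3 Hf(h, k, X), 2 Tf(h, k, X)⟩` over `ℚ[X]`;
* its generic fibre over `ℚ̄(X)` is Klein's curve at `(u, v)`, so it has `25` points killed by `5`
  (`Const/Torsion/Basis.bijective_basis`);
* its fibres at `0` and `t` are the short models of `W`, `W'`;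
* `Const/Glue.exists_equiv_rat` (specialisation at the two places + the coefficientwise Galois
  action on `ℚ̄(X)`) and `Const/Short.exists_equiv_of_short`.
-/

set_option autoImplicit false
set_option linter.unusedSectionVars false
set_option linter.style.haveILetI false

noncomputable section

namespace Fermat.Agent.S52.Const.ViaSpec

open WeierstrassCurve WeierstrassCurve.Affine Polynomial
open scoped WeierstrassCurve.Affine
open Fermat.Agent.S52.KleinFamily Fermat.Agent.S52.Seam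
open Fermat.Agent.S52.Const.Torsion.Forms Fermat.Agent.S52.Const.Torsion.Basis
open Fermat.Agent.S52.Const.Short Fermat.Agent.S52.Const.SpecialLine
open Fermat.Agent.S41.NonEis.Inst (Vp)

local notation "Qb" => AlgebraicClosure ℚ
local notation "GQ" => (AlgebraicClosure ℚ ≃ₐ[ℚ] AlgebraicClosure ℚ)

/-! ### ring homomorphisms commute with the family -/

section maps

variable {R S : Type*} [CommRing R] [CommRing S] (φ : R →+* S) (h k t : R)

theorem map_Hf : φ (Hf h k t) = Hf (φ h) (φ k) (φ t) := by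
  unfold Hf hc0 hc1 hc2 hc3 hc4 hc5 hc6 hc7 hc8 hc9 hc10 hc11 hc12 hc13 hc14 hc15 hc16 hc17 hc18
    hc19 hc20
  simp only [map_mul, map_add, map_pow, map_neg, map_ofNat, map_one]

theorem map_Tf : φ (Tf h k t) = Tf (φ h) (φ k) (φ t) := by
  unfold Tf tc0 tc1 tc2 tc3 tc4 tc5 tc6 tc7 tc8 tc9 tc10 tc11 tc12 tc13 tc14 tc15 tc16 tc17 tc18
    tc19 tc20 tc21 tc22 tc23 tc24 tc25 tc26 tc27 tc28 tc29 tc30
  simp only [map_mul, map_add, map_pow, map_neg, map_ofNat, map_one]

end maps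

/-- **the family of record is Klein's family along a line** (polynomial form over `ℚ̄[X]`). -/
def KleinLine : Prop :=
  ∀ h k : ℤ, k ^ 2 + h ^ 3 ≠ 0 → ∃ u v : Qb[X],
    27 * kH u v = 3 * Hf (C (h : Qb)) (C (k : Qb)) X ∧
    54 * kT u v = 2 * Tf (C (h : Qb)) (C (k : Qb)) X ∧ kf u v ≠ 0

/-- the family of record over `ℚ[X]` -/
def famX (h k : ℤ) : WeierstrassCurve ℚ[X] :=
  ⟨0, 0, 0, 3 * Hf (C (h : ℚ)) (C (k : ℚ)) X, 2 * Tf (C (h : ℚ)) (C (k : ℚ)) X⟩

/-- the fibre of the family at an integer `t` is the short curve `(Hf h k t, Tf h k t)` -/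
theorem famX_fibre (h k t : ℤ) :
    (famX h k).map (Polynomial.evalRingHom (t : ℚ)) = shortHK (Hf h k t) (Tf h k t) := by
  have e1 : ((Hf h k t : ℤ) : ℚ) = Hf (h : ℚ) (k : ℚ) (t : ℚ) := map_Hf (Int.castRingHom ℚ) h k t
  have e2 : ((Tf h k t : ℤ) : ℚ) = Tf (h : ℚ) (k : ℚ) (t : ℚ) := map_Tf (Int.castRingHom ℚ) h k t
  ext
  · simp [famX, shortHK]
  · simp [famX, shortHK]
  · simp [famX, shortHK]
  · simp only [famX, shortHK, map_a₄, map_mul, map_ofNat, map_Hf, coe_evalRingHom, eval_C, eval_X]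
    push_cast
    rw [e1]
  · simp only [famX, shortHK, map_a₆, map_mul, map_ofNat, map_Tf, coe_evalRingHom, eval_C, eval_X]
    push_cast
    rw [e2]

theorem famX_fibre_zero (h k : ℤ) :
    (famX h k).map (Polynomial.evalRingHom (0 : ℚ)) = shortHK h k := by
  have := famX_fibre h k 0
  rwa [Int.cast_zero, Hf_zero, Tf_zero] at this

/-- the discriminant of a short curve -/
theorem shortHK_Δ (h k : ℤ) : (shortHK h k).Δ = -1728 * (((k ^ 2 + h ^ 3 : ℤ)) : ℚ) := by
  simp only [shortHK, WeierstrassCurve.Δ, WeierstrassCurve.b₂, WeierstrassCurve.b₄,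
    WeierstrassCurve.b₆, WeierstrassCurve.b₈]
  push_cast
  ring

/-! ### the generic fibre has full `5`-torsion over `ℚ̄(X)` -/

theorem exists_zeta5 : ∃ ζ : Qb, ζ ^ 4 + ζ ^ 3 + ζ ^ 2 + ζ + 1 = 0 := by
  let p : Qb[X] := X ^ 4 + X ^ 3 + X ^ 2 + X + 1
  have hdeg : p.degree ≠ 0 := by
    have : p.degree = 4 := by
      simp only [p]
      compute_degree!
    rw [this]
    norm_num
  obtain ⟨ζ, hζ⟩ := IsAlgClosed.exists_root p hdeg
  refine ⟨ζ, ?_⟩
  simpa [p, IsRoot] using hζ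

theorem toL_three_mul_Hf (h k : ℤ) :
    toL ℚ Qb (3 * Hf (C (h : ℚ)) (C (k : ℚ)) X)
      = algebraMap Qb[X] (RatFunc Qb) (3 * Hf (C (h : Qb)) (C (k : Qb)) X) := by
  rw [toL_apply]
  congr 1
  rw [← Polynomial.coe_mapRingHom, map_mul, map_ofNat, map_Hf, Polynomial.coe_mapRingHom,
    Polynomial.map_C, Polynomial.map_C, Polynomial.map_X]
  simp only [map_intCast]

theorem toL_two_mul_Tf (h k : ℤ) :
    toL ℚ Qb (2 * Tf (C (h : ℚ)) (C (k : ℚ)) X)
      = algebraMap Qb[X] (RatFunc Qb) (2 * Tf (C (h : Qb)) (C (k : Qb)) X) := by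
  rw [toL_apply]
  congr 1
  rw [← Polynomial.coe_mapRingHom, map_mul, map_ofNat, map_Tf, Polynomial.coe_mapRingHom,
    Polynomial.map_C, Polynomial.map_C, Polynomial.map_X]
  simp only [map_intCast]

/-- the generic fibre of the family of record has (at least) `25` points killed by `5` -/
theorem card_generic [DecidableEq (RatFunc Qb)] (hK : KleinLine) (h k : ℤ)
    (hd : k ^ 2 + h ^ 3 ≠ 0) :
    5 ^ 2 ≤ Nat.card (Submodule.torsionBy ℤ
      ((famX h k).map (toL ℚ Qb)).toAffine.Point ((5 : ℕ) : ℤ)) := by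
  obtain ⟨u, v, h4, h6, hf⟩ := hK h k hd
  set φ := algebraMap Qb[X] (RatFunc Qb) with hφ
  have hkl : IsKleinAt ((famX h k).map (toL ℚ Qb)).toAffine (φ u) (φ v) :=
    { h1 := by simp [famX]
      h2 := by simp [famX]
      h3 := by simp [famX]
      h4 := by
        change toL ℚ Qb (3 * Hf (C (h : ℚ)) (C (k : ℚ)) X) = _
        rw [toL_three_mul_Hf, ← h4, map_mul, map_ofNat, map_kH]
      h6 := by
        change toL ℚ Qb (2 * Tf (C (h : ℚ)) (C (k : ℚ)) X) = _
        rw [toL_two_mul_Tf, ← h6, map_mul, map_ofNat, map_kT]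
      hf := by
        rw [← map_kf]
        exact (map_ne_zero_iff _ (IsFractionRing.injective Qb[X] (RatFunc Qb))).mpr hf }
  obtain ⟨ζ, hζ⟩ := exists_zeta5
  have hz : (algebraMap Qb (RatFunc Qb) ζ) ^ 4 + (algebraMap Qb (RatFunc Qb) ζ) ^ 3
      + (algebraMap Qb (RatFunc Qb) ζ) ^ 2 + algebraMap Qb (RatFunc Qb) ζ + 1 = 0 := by
    rw [← map_pow, ← map_pow, ← map_pow, ← map_add, ← map_add, ← map_add,
      ← map_one (algebraMap Qb (RatFunc Qb)), ← map_add, hζ, map_zero]
  have hb := bijective_basis hkl hz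
  have e1 : Nat.card {R : ((famX h k).map (toL ℚ Qb)).toAffine.Point // (5 : ℕ) • R = 0} = 25 := by
    rw [← Nat.card_congr (Equiv.ofBijective _ hb), Nat.card_prod, Nat.card_zmod]
  have e2 : Nat.card (Submodule.torsionBy ℤ
      ((famX h k).map (toL ℚ Qb)).toAffine.Point ((5 : ℕ) : ℤ)) = 25 := by
    rw [← e1]
    exact Nat.card_congr (Equiv.subtypeEquivRight fun R => by
      rw [Submodule.mem_torsionBy_iff, natCast_zsmul])
  rw [e2]
  norm_num

/-! ### `ConstSeam` -/

/-- **(T2) from `KleinLine`.** -/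
theorem constSeam_of_kleinLine (hK : KleinLine) : ConstSeam := by
  intro W W' hΔ hΔ' t h4 h6
  letI : DecidableEq (RatFunc Qb) := Classical.decEq _
  have hd : kOf W ^ 2 + hOf W ^ 3 ≠ 0 := by
    rw [kOf_sq_add_hOf_cube]
    exact mul_ne_zero (by norm_num) hΔ
  have hd' : Tf (hOf W) (kOf W) t ^ 2 + Hf (hOf W) (kOf W) t ^ 3 ≠ 0 := by
    rw [← h4, ← h6, kOf_sq_add_hOf_cube]
    exact mul_ne_zero (by norm_num) hΔ'
  have hΔ0 : ((famX (hOf W) (kOf W)).map (Polynomial.evalRingHom (0 : ℚ))).Δ ≠ 0 := by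
    rw [famX_fibre_zero, shortHK_Δ]
    exact mul_ne_zero (by norm_num) (Int.cast_ne_zero.mpr hd)
  have hΔt : ((famX (hOf W) (kOf W)).map (Polynomial.evalRingHom (t : ℚ))).Δ ≠ 0 := by
    rw [famX_fibre, shortHK_Δ]
    exact mul_ne_zero (by norm_num) (Int.cast_ne_zero.mpr hd')
  have key := Fermat.Agent.S52.Const.Glue.exists_equiv_rat (famX (hOf W) (kOf W)) 0 (t : ℚ)
    hΔ0 hΔt (n := 5) (by norm_num) (card_generic hK (hOf W) (kOf W) hd)
  rw [famX_fibre_zero, famX_fibre, ← h4, ← h6] at key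
  exact exists_equiv_of_short (W := W) (W' := W') 5 key

end Fermat.Agent.S52.Const.ViaSpec
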