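import Mathlib
import Fermat.Agent.S52.T3.Generic.Point
import Fermat.Agent.S52.Const.ViaSpec

/-!
# PROJECT W (S52), T2 = constancy: `KleinLine` from the substitution identities, and `ConstSeam`

`SubstAt R` : the two substitution identities
`Hf (H u v) (T u v) t = H (u - t f_v, v + t f_u)`, `Tf (H u v) (T u v) t = T (u - t f_v, v + t f_u)`
in the commutative ring `R` (`H, T` Klein's forms of `Const/Torsion/Forms`, `f_u, f_v` the partial
derivatives of Klein's `f`, `Hf, Tf` the family of record).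

* `Hf_weight`, `Tf_weight` : weighted homogeneity of the family of record;
* `kleinLine_of_subst : SubstAt ℚ̄[X] → ViaSpec.KleinLine` (with `T3/Generic/Point.exists_point_short`);
* `constSeam_of_subst : SubstAt ℚ̄[X] → Seam.ConstSeam`.
-/

set_option autoImplicit false
set_option linter.unusedSectionVars false

noncomputable section

namespace Fermat.Agent.S52.Const.KleinLine

open Polynomial
open Fermat.Agent.S52.KleinFamily Fermat.Agent.S52.Seam
open Fermat.Agent.S52.Const.Torsion.Forms Fermat.Agent.S52.Const.Torsion.Basis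
open Fermat.Agent.S52.Const.ViaSpec

local notation "Qb" => AlgebraicClosure ℚ

section Forms

variable {R : Type*} [CommRing R]

/-- `∂f/∂u` of Klein's `f` -/
def kfu (u v : R) : R := 11 * u ^ 10 * v + 66 * u ^ 5 * v ^ 6 - v ^ 11

/-- `∂f/∂v` of Klein's `f` -/
def kfv (u v : R) : R := u ^ 11 + 66 * u ^ 6 * v ^ 5 - 11 * u * v ^ 10

/-- the two substitution identities in the ring `R` -/
def SubstAt (R : Type*) [CommRing R] : Prop :=
  ∀ u v t : R, Hf (kH u v) (kT u v) t = kH (u - t * kfv u v) (v + t * kfu u v) ∧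
    Tf (kH u v) (kT u v) t = kT (u - t * kfv u v) (v + t * kfu u v)

/-- weighted homogeneity of `Hf` (weights `h : 2`, `k : 3`, `t : -1`) -/
theorem Hf_weight (n a b t : R) : Hf (n ^ 2 * a) (n ^ 3 * b) t = n ^ 2 * Hf a b (n * t) := by
  unfold Hf hc0 hc1 hc2 hc3 hc4 hc5 hc6 hc7 hc8 hc9 hc10 hc11 hc12 hc13 hc14 hc15 hc16 hc17 hc18
    hc19 hc20
  ring

/-- weighted homogeneity of `Tf` -/
theorem Tf_weight (n a b t : R) : Tf (n ^ 2 * a) (n ^ 3 * b) t = n ^ 3 * Tf a b (n * t) := by
  unfold Tf tc0 tc1 tc2 tc3 tc4 tc5 tc6 tc7 tc8 tc9 tc10 tc11 tc12 tc13 tc14 tc15 tc16 tc17 tc18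
    tc19 tc20 tc21 tc22 tc23 tc24 tc25 tc26 tc27 tc28 tc29 tc30
  ring

end Forms

/-- **the family of record is Klein's family along a line**, from the substitution identities -/
theorem kleinLine_of_subst (hsub : SubstAt Qb[X]) : KleinLine := by
  intro h k hd
  have hd' : ((k : Qb)) ^ 2 + ((h : Qb)) ^ 3 ≠ 0 := by
    have : ((k : Qb)) ^ 2 + ((h : Qb)) ^ 3 = ((k ^ 2 + h ^ 3 : ℤ) : Qb) := by push_cast; ring
    rw [this]
    exact Int.cast_ne_zero.mpr hd
  obtain ⟨u0, v0, e4, e6, hf⟩ :=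
    Fermat.Agent.S52.T3.Generic.Point.exists_point_short (K := Qb) (h : Qb) (k : Qb) hd'
  -- bridge to the forms of `Const/Torsion/Forms` (same expressions)
  have e4' : 3 * (h : Qb) = 27 * kH u0 v0 := e4
  have e6' : 2 * (k : Qb) = 54 * kT u0 v0 := e6
  have hf' : kf u0 v0 ≠ 0 := hf
  have eh : (h : Qb) = 3 ^ 2 * kH u0 v0 := by linear_combination (1 / 3 : Qb) * e4'
  have ek : (k : Qb) = 3 ^ 3 * kT u0 v0 := by linear_combination (1 / 2 : Qb) * e6'
  obtain ⟨sH, sT⟩ := hsub (C u0) (C v0) (3 * X)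
  refine ⟨C u0 - 3 * X * kfv (C u0) (C v0), C v0 + 3 * X * kfu (C u0) (C v0), ?_, ?_, ?_⟩
  · rw [← sH, eh, ek, map_mul, map_mul, map_pow, map_pow, map_ofNat, ← map_kH C, ← map_kT C,
      Hf_weight]
    ring
  · rw [← sT, eh, ek, map_mul, map_mul, map_pow, map_pow, map_ofNat, ← map_kH C, ← map_kT C,
      Tf_weight]
    ring
  · intro h0
    apply hf'
    have := congrArg (Polynomial.evalRingHom (0 : Qb)) h0
    rw [map_kf, map_zero] at this
    simpa using this

/-- **(T2) from the substitution identities.** -/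
theorem constSeam_of_subst (hsub : SubstAt Qb[X]) : ConstSeam :=
  constSeam_of_kleinLine (kleinLine_of_subst hsub)

end Fermat.Agent.S52.Const.KleinLine
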